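import Mathlib.GroupTheory.Finiteness
import Mathlib.RingTheory.Finiteness.Basic
import Mathlib.LinearAlgebra.Matrix.Defs
import Mathlib.LinearAlgebra.Span.Basic

set_option autoImplicit false

namespace Fermat.Agent.S22_helper26

variable {G : Type*} [Group G] {X : Type*} [AddCommGroup X] {m : ℕ}

/-- The abstract "integral cocycle" relation: `c (γ δ) = ρ(δ) (c γ) + c δ` on coordinates. -/
def IsIntCocycle (ρ : G → Matrix (Fin m) (Fin m) ℤ) (c : G → Fin m → X) : Prop :=
  ∀ γ δ i, c (γ * δ) i = ∑ j, ρ δ i j • c γ j + c δ i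

/-- The lattice spanned by all coordinates of all values of `c`. -/
def cocycleLattice (c : G → Fin m → X) : Submodule ℤ X :=
  Submodule.span ℤ {x | ∃ γ i, x = c γ i}

/-- The lattice spanned by the coordinates of the values of `c` on `1` and on a set `s`. -/
def cocycleLatticeOn (c : G → Fin m → X) (s : Set G) : Submodule ℤ X :=
  Submodule.span ℤ {x | ∃ γ ∈ insert (1 : G) s, ∃ i, x = c γ i}

theorem cocycleLatticeOn_le (c : G → Fin m → X) (s : Set G) :
    cocycleLatticeOn c s ≤ cocycleLattice c := by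
  apply Submodule.span_mono
  rintro x ⟨γ, -, i, rfl⟩
  exact ⟨γ, i, rfl⟩

theorem mem_cocycleLatticeOn_of_mem_closure {ρ : G → Matrix (Fin m) (Fin m) ℤ}
    {c : G → Fin m → X} (hc : IsIntCocycle ρ c) (s : Set G) {γ : G}
    (hγ : γ ∈ Subgroup.closure s) (i : Fin m) : c γ i ∈ cocycleLatticeOn c s := by
  have h1 : ∀ i, c 1 i ∈ cocycleLatticeOn c s := fun i =>
    Submodule.subset_span ⟨1, Set.mem_insert _ _, i, rfl⟩
  revert i
  induction hγ using Subgroup.closure_induction with
  | mem x hx =>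
    intro i
    exact Submodule.subset_span ⟨x, Set.mem_insert_of_mem _ hx, i, rfl⟩
  | one => exact h1
  | mul x y _ _ hx hy =>
    intro i
    rw [hc x y i]
    refine Submodule.add_mem _ (Submodule.sum_mem _ fun j _ => ?_) (hy i)
    exact Submodule.smul_mem _ _ (hx j)
  | inv x _ hx =>
    intro i
    have h := hc x x⁻¹ i
    rw [mul_inv_cancel] at h
    have h' : c x⁻¹ i = c 1 i - ∑ j, ρ x⁻¹ i j • c x j := by
      rw [h]; abel
    rw [h']
    refine Submodule.sub_mem _ (h1 i) (Submodule.sum_mem _ fun j _ => ?_)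
    exact Submodule.smul_mem _ _ (hx j)

theorem cocycleLattice_eq_cocycleLatticeOn {ρ : G → Matrix (Fin m) (Fin m) ℤ}
    {c : G → Fin m → X} (hc : IsIntCocycle ρ c) {s : Set G}
    (hs : Subgroup.closure s = ⊤) : cocycleLattice c = cocycleLatticeOn c s := by
  apply le_antisymm _ (cocycleLatticeOn_le c s)
  apply Submodule.span_le.mpr
  rintro x ⟨γ, i, rfl⟩
  exact mem_cocycleLatticeOn_of_mem_closure hc s (hs ▸ Subgroup.mem_top γ) i

theorem cocycleLatticeOn_fg (c : G → Fin m → X) {s : Set G} (hs : s.Finite) :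
    (cocycleLatticeOn c s).FG := by
  have hfin : ({x | ∃ γ ∈ insert (1 : G) s, ∃ i, x = c γ i} : Set X).Finite := by
    have : ({x | ∃ γ ∈ insert (1 : G) s, ∃ i, x = c γ i} : Set X) =
        (fun p : G × Fin m => c p.1 p.2) '' ((insert (1 : G) s) ×ˢ (Set.univ : Set (Fin m))) := by
      ext x
      constructor
      · rintro ⟨γ, hγ, i, rfl⟩
        exact ⟨(γ, i), ⟨hγ, Set.mem_univ _⟩, rfl⟩
      · rintro ⟨⟨γ, i⟩, ⟨hγ, -⟩, rfl⟩
        exact ⟨γ, hγ, i, rfl⟩
    rw [this]
    exact ((hs.insert 1).prod Set.finite_univ).image _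
  exact Submodule.fg_span hfin

/-- Main statement: if `G` is generated by a finite set, the cocycle lattice is finitely
generated. -/
theorem cocycleLattice_fg_of_closure {ρ : G → Matrix (Fin m) (Fin m) ℤ}
    {c : G → Fin m → X} (hc : IsIntCocycle ρ c) {s : Set G} (hfin : s.Finite)
    (hs : Subgroup.closure s = ⊤) : (cocycleLattice c).FG := by
  rw [cocycleLattice_eq_cocycleLatticeOn hc hs]
  exact cocycleLatticeOn_fg c hfin

theorem cocycleLattice_fg [hG : Group.FG G] {ρ : G → Matrix (Fin m) (Fin m) ℤ}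
    {c : G → Fin m → X} (hc : IsIntCocycle ρ c) : (cocycleLattice c).FG := by
  obtain ⟨s, hs⟩ := Group.fg_def.mp hG
  exact cocycleLattice_fg_of_closure hc s.finite_toSet hs

/-- Variant for a finitely generated subgroup `Γ` of an ambient group `H`, with `c`, `ρ` defined on
all of `H` and the cocycle relation only required on `Γ`. -/
theorem span_cocycle_subgroup_fg {H : Type*} [Group H] (Γ : Subgroup H) [Group.FG Γ]
    {ρ : H → Matrix (Fin m) (Fin m) ℤ} {c : H → Fin m → X}
    (hc : ∀ γ ∈ Γ, ∀ δ ∈ Γ, ∀ i, c (γ * δ) i = ∑ j, ρ δ i j • c γ j + c δ i) :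
    (Submodule.span ℤ {x | ∃ γ ∈ Γ, ∃ i, x = c γ i}).FG := by
  have hc' : IsIntCocycle (fun γ : Γ => ρ γ.1) (fun γ : Γ => c γ.1) := by
    intro γ δ i
    exact hc γ.1 γ.2 δ.1 δ.2 i
  have h := cocycleLattice_fg hc'
  have heq : cocycleLattice (fun γ : Γ => c γ.1) =
      Submodule.span ℤ {x | ∃ γ ∈ Γ, ∃ i, x = c γ i} := by
    unfold cocycleLattice
    congr 1
    ext x
    constructor
    · rintro ⟨γ, i, rfl⟩
      exact ⟨γ.1, γ.2, i, rfl⟩
    · rintro ⟨γ, hγ, i, rfl⟩
      exact ⟨⟨γ, hγ⟩, i, rfl⟩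
  rw [← heq]
  exact h

end Fermat.Agent.S22_helper26
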