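import Mathlib.NumberTheory.ModularForms.SlashActions
import Mathlib.Algebra.Polynomial.Degree.Lemmas
import Mathlib.Algebra.Polynomial.Eval.Degree
import Mathlib.Algebra.Polynomial.AlgebraMap
import Mathlib.Tactic.Ring
import Mathlib.Tactic.FieldSimp
import Mathlib.Tactic.Linarith

set_option autoImplicit false

namespace Fermat.Agent.S22_helper26

open Polynomial

section General

variable {R : Type*} [CommRing R]

/-- The `i`-th "basis" polynomial `(aX+b)^i (cX+d)^(n-i)` of the weight `-n` action. -/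
noncomputable def slashMonomial (n : ℕ) (a b c d : R) (i : ℕ) : R[X] :=
  (C a * X + C b) ^ i * (C c * X + C d) ^ (n - i)

/-- `polySlash n a b c d P = ∑_{i ≤ n} P_i (aX+b)^i (cX+d)^(n-i)`: the weight `-n` action of the
matrix `[a b; c d]` on polynomials of degree `≤ n` (without any determinant factor). -/
noncomputable def polySlash (n : ℕ) (a b c d : R) (P : R[X]) : R[X] :=
  ∑ i ∈ Finset.range (n + 1), C (P.coeff i) * slashMonomial n a b c d i

/-- The matrix entries of `polySlash` on coefficient vectors. -/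
noncomputable def slashMatrix (n : ℕ) (a b c d : R) (j i : ℕ) : R :=
  (slashMonomial n a b c d i).coeff j

theorem natDegree_slashMonomial_le (n : ℕ) (a b c d : R) {i : ℕ} (hi : i ≤ n) :
    (slashMonomial n a b c d i).natDegree ≤ n := by
  unfold slashMonomial
  refine (natDegree_mul_le).trans ?_
  have h1 : ((C a * X + C b) ^ i).natDegree ≤ i := by
    refine (natDegree_pow_le).trans ?_
    calc i * (C a * X + C b).natDegree ≤ i * 1 :=
          Nat.mul_le_mul_left _ (natDegree_linear_le)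
      _ = i := mul_one i
  have h2 : ((C c * X + C d) ^ (n - i)).natDegree ≤ n - i := by
    refine (natDegree_pow_le).trans ?_
    calc (n - i) * (C c * X + C d).natDegree ≤ (n - i) * 1 :=
          Nat.mul_le_mul_left _ (natDegree_linear_le)
      _ = n - i := mul_one _
  omega

theorem natDegree_polySlash_le (n : ℕ) (a b c d : R) (P : R[X]) :
    (polySlash n a b c d P).natDegree ≤ n := by
  unfold polySlash
  refine natDegree_sum_le_of_forall_le _ _ fun i hi => ?_
  have hi' : i ≤ n := Nat.lt_succ_iff.mp (Finset.mem_range.mp hi)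
  refine (natDegree_C_mul_le _ _).trans (natDegree_slashMonomial_le n a b c d hi')

theorem degree_polySlash_lt (n : ℕ) (a b c d : R) (P : R[X]) :
    (polySlash n a b c d P).degree < (n + 1 : ℕ) := by
  refine lt_of_le_of_lt degree_le_natDegree ?_
  exact_mod_cast Nat.lt_succ_of_le (natDegree_polySlash_le n a b c d P)

@[simp]
theorem polySlash_zero (n : ℕ) (a b c d : R) : polySlash n a b c d 0 = 0 := by
  simp [polySlash]

theorem polySlash_add (n : ℕ) (a b c d : R) (P Q : R[X]) :
    polySlash n a b c d (P + Q) = polySlash n a b c d P + polySlash n a b c d Q := by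
  simp only [polySlash, coeff_add, C_add, add_mul, Finset.sum_add_distrib]

theorem polySlash_smul (n : ℕ) (a b c d : R) (r : R) (P : R[X]) :
    polySlash n a b c d (r • P) = r • polySlash n a b c d P := by
  unfold polySlash
  rw [Finset.smul_sum]
  refine Finset.sum_congr rfl fun i _ => ?_
  rw [coeff_smul, smul_eq_mul, C_mul, smul_eq_C_mul, mul_assoc]

theorem polySlash_neg (n : ℕ) (a b c d : R) (P : R[X]) :
    polySlash n a b c d (-P) = -polySlash n a b c d P := by
  simp only [polySlash, coeff_neg, C_neg, neg_mul, Finset.sum_neg_distrib]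

theorem polySlash_sub (n : ℕ) (a b c d : R) (P Q : R[X]) :
    polySlash n a b c d (P - Q) = polySlash n a b c d P - polySlash n a b c d Q := by
  rw [sub_eq_add_neg, polySlash_add, polySlash_neg, ← sub_eq_add_neg]

/-- `polySlash` bundled as a linear map. -/
noncomputable def polySlashLin (n : ℕ) (a b c d : R) : R[X] →ₗ[R] R[X] where
  toFun := polySlash n a b c d
  map_add' := polySlash_add n a b c d
  map_smul' r P := by simpa using polySlash_smul n a b c d r P

@[simp]
theorem polySlashLin_apply (n : ℕ) (a b c d : R) (P : R[X]) :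
    polySlashLin n a b c d P = polySlash n a b c d P := rfl

theorem polySlash_sum {ι : Type*} (s : Finset ι) (n : ℕ) (a b c d : R) (P : ι → R[X]) :
    polySlash n a b c d (∑ i ∈ s, P i) = ∑ i ∈ s, polySlash n a b c d (P i) :=
  map_sum (polySlashLin n a b c d) P s

theorem coeff_polySlash (n : ℕ) (a b c d : R) (P : R[X]) (j : ℕ) :
    (polySlash n a b c d P).coeff j =
      ∑ i ∈ Finset.range (n + 1), slashMatrix n a b c d j i * P.coeff i := by
  unfold polySlash slashMatrix
  rw [finsetSum_coeff]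
  refine Finset.sum_congr rfl fun i _ => ?_
  rw [coeff_C_mul, mul_comm]

section Map

variable {S : Type*} [CommRing S] (φ : R →+* S)

theorem map_slashMonomial (n : ℕ) (a b c d : R) (i : ℕ) :
    (slashMonomial n a b c d i).map φ = slashMonomial n (φ a) (φ b) (φ c) (φ d) i := by
  simp [slashMonomial]

theorem map_polySlash (n : ℕ) (a b c d : R) (P : R[X]) :
    (polySlash n a b c d P).map φ = polySlash n (φ a) (φ b) (φ c) (φ d) (P.map φ) := by
  simp only [polySlash, Polynomial.map_sum, Polynomial.map_mul, map_C, map_slashMonomial,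
    coeff_map]

theorem map_slashMatrix (n : ℕ) (a b c d : R) (j i : ℕ) :
    φ (slashMatrix n a b c d j i) = slashMatrix n (φ a) (φ b) (φ c) (φ d) j i := by
  simp only [slashMatrix, ← map_slashMonomial, coeff_map]

end Map

end General

section Field

variable {K : Type*} [Field K]

theorem eval_slashMonomial (n : ℕ) (a b c d z : K) {i : ℕ} (hi : i ≤ n) (hz : c * z + d ≠ 0) :
    (slashMonomial n a b c d i).eval z = (c * z + d) ^ n * ((a * z + b) / (c * z + d)) ^ i := by
  simp only [slashMonomial, eval_mul, eval_pow, eval_add, eval_C, eval_X]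
  rw [div_pow]
  have : (c * z + d) ^ n = (c * z + d) ^ (n - i) * (c * z + d) ^ i := by
    rw [← pow_add, Nat.sub_add_cancel hi]
  rw [this]
  have hne : (c * z + d) ^ i ≠ 0 := pow_ne_zero _ hz
  rw [mul_assoc, mul_div_cancel₀ _ hne, mul_comm]

theorem eval_polySlash (n : ℕ) (a b c d z : K) (P : K[X]) (hP : P.natDegree ≤ n)
    (hz : c * z + d ≠ 0) :
    (polySlash n a b c d P).eval z = (c * z + d) ^ n * P.eval ((a * z + b) / (c * z + d)) := by
  rw [polySlash, eval_finsetSum, eval_eq_sum_range' (Nat.lt_succ_of_le hP), Finset.mul_sum]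
  refine Finset.sum_congr rfl fun i hi => ?_
  have hi' : i ≤ n := Nat.lt_succ_iff.mp (Finset.mem_range.mp hi)
  rw [eval_mul, eval_C, eval_slashMonomial n a b c d z hi' hz]
  ring

end Field

section Slash

open UpperHalfPlane ModularForm
open scoped MatrixGroups ModularForm

/-- The function `z ↦ P(z)` on the upper half plane. -/
noncomputable def polyFun (P : ℂ[X]) : ℍ → ℂ := fun z => P.eval (z : ℂ)

@[simp] theorem polyFun_apply (P : ℂ[X]) (z : ℍ) : polyFun P z = P.eval (z : ℂ) := rfl

theorem natDegree_le_pred_of_degree_lt {P : ℂ[X]} {m : ℕ} (hm : 1 ≤ m) (hP : P.degree < m) :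
    P.natDegree ≤ m - 1 := by
  by_cases h0 : P = 0
  · simp [h0]
  · have := (natDegree_lt_iff_degree_lt h0).mpr hP
    omega

/-- The weight `1 - m` slash action of a real matrix of positive determinant on a polynomial
function of degree `< m`, in terms of `polySlash`. -/
theorem slash_polyFun {m : ℕ} (hm : 1 ≤ m) {P : ℂ[X]} (hP : P.degree < m)
    (g : GL (Fin 2) ℝ) (hg : 0 < g.det.val) :
    polyFun P ∣[(1 : ℤ) - m] g =
      ((g.det.val : ℂ)⁻¹) ^ m •
        polyFun (polySlash (m - 1) ((g 0 0 : ℝ) : ℂ) ((g 0 1 : ℝ) : ℂ) ((g 1 0 : ℝ) : ℂ)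
          ((g 1 1 : ℝ) : ℂ) P) := by
  ext z
  have hden : ((g 1 0 : ℝ) : ℂ) * (z : ℂ) + ((g 1 1 : ℝ) : ℂ) ≠ 0 := denom_ne_zero g z
  rw [ModularForm.slash_apply, Pi.smul_apply, polyFun_apply, polyFun_apply,
    eval_polySlash _ _ _ _ _ _ _ (natDegree_le_pred_of_degree_lt hm hP) hden,
    coe_smul_of_det_pos hg]
  have hσ : σ g = ContinuousAlgEquiv.refl ℝ ℂ := by rw [σ, if_pos hg]
  rw [hσ, ContinuousAlgEquiv.refl_apply, abs_of_pos hg]
  have e1 : ((1 : ℤ) - m - 1) = -(m : ℤ) := by ring
  have e2 : (-((1 : ℤ) - m)) = ((m - 1 : ℕ) : ℤ) := by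
    rw [Nat.cast_sub hm]; ring
  rw [e1, e2, zpow_neg, zpow_natCast, zpow_natCast, inv_pow, smul_eq_mul]
  show _ * _ * (((g 1 0 : ℝ) : ℂ) * (z : ℂ) + ((g 1 1 : ℝ) : ℂ)) ^ (m - 1) = _
  show eval ((((g 0 0 : ℝ) : ℂ) * (z : ℂ) + ((g 0 1 : ℝ) : ℂ)) /
      (((g 1 0 : ℝ) : ℂ) * (z : ℂ) + ((g 1 1 : ℝ) : ℂ))) P * _ * _ = _
  ring

/-- The `SL(2, ℤ)` case: no determinant factor and integer entries. -/
theorem SL_slash_polyFun {m : ℕ} (hm : 1 ≤ m) {P : ℂ[X]} (hP : P.degree < m) (γ : SL(2, ℤ)) :
    polyFun P ∣[(1 : ℤ) - m] γ =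
      polyFun (polySlash (m - 1) ((γ 0 0 : ℤ) : ℂ) ((γ 0 1 : ℤ) : ℂ) ((γ 1 0 : ℤ) : ℂ)
        ((γ 1 1 : ℤ) : ℂ) P) := by
  rw [ModularForm.SL_slash, slash_polyFun hm hP _ (by simp)]
  simp

end Slash

section IntCoeff

/-- Over `ℂ` with integer matrix entries, the coefficients of `polySlash` are INTEGER linear
combinations of the coefficients of `P`. -/
theorem coeff_polySlash_intCast (n : ℕ) (a b c d : ℤ) (P : ℂ[X]) (j : ℕ) :
    (polySlash n (a : ℂ) (b : ℂ) (c : ℂ) (d : ℂ) P).coeff j =
      ∑ i ∈ Finset.range (n + 1), ((slashMatrix n a b c d j i : ℤ) : ℂ) * P.coeff i := by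
  rw [coeff_polySlash]
  refine Finset.sum_congr rfl fun i _ => ?_
  have := map_slashMatrix (Int.castRingHom ℂ) n a b c d j i
  simp only [eq_intCast] at this
  rw [this]

/-- The same with `zsmul`. -/
theorem coeff_polySlash_intCast' (n : ℕ) (a b c d : ℤ) (P : ℂ[X]) (j : ℕ) :
    (polySlash n (a : ℂ) (b : ℂ) (c : ℂ) (d : ℂ) P).coeff j =
      ∑ i ∈ Finset.range (n + 1), slashMatrix n a b c d j i • P.coeff i := by
  rw [coeff_polySlash_intCast]
  simp only [zsmul_eq_mul]

open scoped MatrixGroups in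
/-- The integer matrix by which `γ ∈ SL(2, ℤ)` acts (weight `1 - m`) on coefficient vectors of
polynomials of degree `< m`. -/
noncomputable def slashMatrixSL (m : ℕ) (γ : SL(2, ℤ)) : Matrix (Fin m) (Fin m) ℤ :=
  fun j i => slashMatrix (m - 1) (γ 0 0) (γ 0 1) (γ 1 0) (γ 1 1) j i

open scoped MatrixGroups in
theorem coeff_polySlash_SL {m : ℕ} (hm : 1 ≤ m) (γ : SL(2, ℤ)) (P : ℂ[X]) (j : Fin m) :
    (polySlash (m - 1) ((γ 0 0 : ℤ) : ℂ) ((γ 0 1 : ℤ) : ℂ) ((γ 1 0 : ℤ) : ℂ)
        ((γ 1 1 : ℤ) : ℂ) P).coeff j =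
      ∑ i : Fin m, slashMatrixSL m γ j i • P.coeff i := by
  rw [coeff_polySlash_intCast', Nat.sub_add_cancel hm, Finset.sum_range]
  rfl

end IntCoeff

end Fermat.Agent.S22_helper26
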