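import Fermat.Agent.S22_helper26.PolySlash
import Fermat.Prelude.Def_ModularForm_HeckeOperator

set_option autoImplicit false

namespace Fermat.Agent.S22_helper26

open Polynomial UpperHalfPlane ModularForm
open scoped MatrixGroups ModularForm

/-- Weight `1 - m` slash of a polynomial function by the Hecke matrix `[1 j; 0 p]`. -/
theorem slash_heckeMatrix_polyFun {m : ℕ} (hm : 1 ≤ m) {P : ℂ[X]} (hP : P.degree < m)
    {p : ℕ} (hp : p ≠ 0) (j : ℕ) :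
    polyFun P ∣[(1 : ℤ) - m] heckeMatrix p j =
      ((p : ℂ)⁻¹) ^ m •
        polyFun (polySlash (m - 1) (((1 : ℤ) : ℂ)) (((j : ℤ) : ℂ)) (((0 : ℤ) : ℂ))
          (((p : ℤ) : ℂ)) P) := by
  rw [slash_polyFun hm hP _ (det_heckeMatrix_pos p j), det_heckeMatrix hp]
  have h00 : (heckeMatrix p j : Matrix (Fin 2) (Fin 2) ℝ) 0 0 = 1 := by
    rw [val_heckeMatrix hp]; rfl
  have h01 : (heckeMatrix p j : Matrix (Fin 2) (Fin 2) ℝ) 0 1 = j := by
    rw [val_heckeMatrix hp]; rfl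
  have h10 : (heckeMatrix p j : Matrix (Fin 2) (Fin 2) ℝ) 1 0 = 0 := by
    rw [val_heckeMatrix hp]; rfl
  have h11 : (heckeMatrix p j : Matrix (Fin 2) (Fin 2) ℝ) 1 1 = p := by
    rw [val_heckeMatrix hp]; rfl
  rw [h00, h01, h10, h11]
  simp

/-- Weight `1 - m` slash of a polynomial function by the Hecke matrix `[p 0; 0 1]`. -/
theorem slash_heckeDiagMatrix_polyFun {m : ℕ} (hm : 1 ≤ m) {P : ℂ[X]} (hP : P.degree < m)
    {p : ℕ} (hp : p ≠ 0) :
    polyFun P ∣[(1 : ℤ) - m] heckeDiagMatrix p =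
      ((p : ℂ)⁻¹) ^ m •
        polyFun (polySlash (m - 1) (((p : ℤ) : ℂ)) (((0 : ℤ) : ℂ)) (((0 : ℤ) : ℂ))
          (((1 : ℤ) : ℂ)) P) := by
  rw [slash_polyFun hm hP _ (det_heckeDiagMatrix_pos p), det_heckeDiagMatrix hp]
  have h00 : (heckeDiagMatrix p : Matrix (Fin 2) (Fin 2) ℝ) 0 0 = p := by
    rw [val_heckeDiagMatrix hp]; rfl
  have h01 : (heckeDiagMatrix p : Matrix (Fin 2) (Fin 2) ℝ) 0 1 = 0 := by
    rw [val_heckeDiagMatrix hp]; rfl
  have h10 : (heckeDiagMatrix p : Matrix (Fin 2) (Fin 2) ℝ) 1 0 = 0 := by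
    rw [val_heckeDiagMatrix hp]; rfl
  have h11 : (heckeDiagMatrix p : Matrix (Fin 2) (Fin 2) ℝ) 1 1 = 1 := by
    rw [val_heckeDiagMatrix hp]; rfl
  rw [h00, h01, h10, h11]
  simp

end Fermat.Agent.S22_helper26
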